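import Mathlib.RingTheory.Valuation.RamificationGroup
import Mathlib.FieldTheory.IsAlgClosed.AlgebraicClosure
import Mathlib.FieldTheory.Minpoly.Field
import Mathlib.RingTheory.Polynomial.Basic
import Fermat.Agent.S54.H94.Frobenius
import Fermat.Prelude.Def_FLTPrelim_Ramification

set_option autoImplicit false

namespace Fermat.Agent.S13.H94

open scoped Pointwise

local notation "Qbar" => AlgebraicClosure ℚ
local notation "Γ" => (AlgebraicClosure ℚ ≃ₐ[ℚ] AlgebraicClosure ℚ)

/-- D0: valuation subrings over every prime exist. -/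
theorem exists_liesOverPrime (q : ℕ) (hq : q.Prime) :
    ∃ A : ValuationSubring Qbar, A.LiesOverPrime q :=
  Fermat.Agent.S54.H94.exists_liesOverPrime hq

/-- Elements of the decomposition group preserve the valuation subring. -/
lemma map_mem_iff_of_mem_decomposition (A : ValuationSubring Qbar) (σ : Γ)
    (hσ : σ ∈ A.decompositionSubgroup ℚ) (x : Qbar) : σ x ∈ A ↔ x ∈ A := by
  have h : σ • A = A := hσ
  conv_lhs => rw [← h]
  exact ValuationSubring.smul_mem_pointwise_smul_iff

/-- Elements of the decomposition group preserve the order of valuations. -/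
lemma valuation_map_le_iff (A : ValuationSubring Qbar) (σ : Γ)
    (hσ : σ ∈ A.decompositionSubgroup ℚ) (a b : Qbar) :
    A.valuation (σ a) ≤ A.valuation (σ b) ↔ A.valuation a ≤ A.valuation b := by
  by_cases hb : b = 0
  · subst hb
    simp
  · have hσb : σ b ≠ 0 := by simpa using hb
    have h1 : 0 < A.valuation b := zero_lt_iff.mpr ((Valuation.ne_zero_iff _).mpr hb)
    have h2 : 0 < A.valuation (σ b) := zero_lt_iff.mpr ((Valuation.ne_zero_iff _).mpr hσb)
    rw [← div_le_one₀ h1, ← div_le_one₀ h2, ← map_div₀, ← map_div₀, ← map_div₀,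
      A.valuation_le_one_iff, A.valuation_le_one_iff]
    exact map_mem_iff_of_mem_decomposition A σ hσ _

/-- Every element of `ℚbar` is fixed by a positive power of a given automorphism. -/
lemma exists_pow_apply_eq (σ : Γ) (z : Qbar) : ∃ N : ℕ, 0 < N ∧ (σ ^ N) z = z := by
  have hz : IsIntegral ℚ z := Algebra.IsIntegral.isIntegral z
  have hmem : ∀ k : ℕ, (σ ^ k) z ∈ (minpoly ℚ z).rootSet Qbar := by
    intro k
    rw [Polynomial.mem_rootSet]
    refine ⟨minpoly.ne_zero hz, ?_⟩
    have := Polynomial.aeval_algHom_apply ((σ ^ k : Γ) : Qbar →ₐ[ℚ] Qbar) z (minpoly ℚ z)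
    rw [minpoly.aeval, map_zero] at this
    exact this
  have hfin : Finite ((minpoly ℚ z).rootSet Qbar) := (Polynomial.rootSet_finite _ _).to_subtype
  obtain ⟨k, l, hkl, h⟩ := Finite.exists_ne_map_eq_of_infinite
    (fun k : ℕ => (⟨(σ ^ k) z, hmem k⟩ : (minpoly ℚ z).rootSet Qbar))
  have h' : (σ ^ k) z = (σ ^ l) z := congrArg Subtype.val h
  have key : ∀ k l : ℕ, k < l → (σ ^ k) z = (σ ^ l) z → ∃ N : ℕ, 0 < N ∧ (σ ^ N) z = z := by
    intro k l hkl h
    refine ⟨l - k, by omega, ?_⟩
    have h1 : σ ^ l = σ ^ k * σ ^ (l - k) := by rw [← pow_add]; congr 1; omega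
    rw [h1, AlgEquiv.mul_apply] at h
    exact ((σ ^ k).injective h).symm
  rcases lt_or_gt_of_ne hkl with hlt | hgt
  · exact key k l hlt h'
  · exact key l k hgt h'.symm

/-- D1: elements of the decomposition group preserve the valuation. -/
theorem valuation_map_of_mem_decomposition (A : ValuationSubring Qbar) (σ : Γ)
    (hσ : σ ∈ A.decompositionSubgroup ℚ) (z : Qbar) : A.valuation (σ z) = A.valuation z := by
  obtain ⟨N, hN, hNz⟩ := exists_pow_apply_eq σ z
  have hsucc : ∀ k : ℕ, (σ ^ (k + 1)) z = σ ((σ ^ k) z) := by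
    intro k
    rw [pow_succ', AlgEquiv.mul_apply]
  rcases le_total (A.valuation (σ z)) (A.valuation z) with h | h
  · have hanti : Antitone fun k : ℕ => A.valuation ((σ ^ k) z) := by
      refine antitone_nat_of_succ_le fun k => ?_
      induction k with
      | zero => simpa using h
      | succ k ih =>
        rw [hsucc k] at ih
        rw [hsucc (k + 1), hsucc k]
        exact (valuation_map_le_iff A σ hσ _ _).mpr ih
    have h1 := hanti (Nat.succ_le_of_lt hN)
    simp only [pow_one, hNz] at h1
    exact le_antisymm h h1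
  · have hmono : Monotone fun k : ℕ => A.valuation ((σ ^ k) z) := by
      refine monotone_nat_of_le_succ fun k => ?_
      induction k with
      | zero => simpa using h
      | succ k ih =>
        rw [hsucc k] at ih
        rw [hsucc (k + 1), hsucc k]
        exact (valuation_map_le_iff A σ hσ _ _).mpr ih
    have h1 := hmono (Nat.succ_le_of_lt hN)
    simp only [pow_one, hNz] at h1
    exact le_antisymm h1 h

end Fermat.Agent.S13.H94
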