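import Mathlib.NumberTheory.NumberField.ExistsRamified

set_option autoImplicit false

namespace Fermat.Agent.S13.H94

open scoped NumberField

/-- A Galois number field different from `ℚ` has a rational prime `p` such that the inertia group of
every prime over `p` is nontrivial. -/
theorem exists_inertia_ne_one (K : Type*) [Field K] [NumberField K] [IsGalois ℚ K]
    (H : 1 < Module.finrank ℚ K) :
    ∃ p : ℕ, p.Prime ∧ ∀ (P : Ideal (𝓞 K)) (_ : P.IsPrime), (p : 𝓞 K) ∈ P →
      ∃ τ : Gal(K/ℚ), τ ≠ 1 ∧ ∀ x : 𝓞 K, τ • x - x ∈ P := by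
  obtain ⟨p, hp, h⟩ := NumberField.exists_not_isUnramifiedAt_int_of_isGalois (𝒪 := 𝓞 K) H
  refine ⟨p, hp, fun P hP hpP => ?_⟩
  have hram := h P hP hpP
  have hne : P.under ℤ ≠ ⊥ := by
    intro hbot
    have h1 : (p : ℤ) ∈ P.under ℤ := by
      rw [Ideal.under, Ideal.mem_comap]
      simpa using hpP
    rw [hbot, Ideal.mem_bot] at h1
    exact hp.ne_zero (by exact_mod_cast h1)
  have hmax : (P.under ℤ).IsMaximal := Ring.DimensionLEOne.maximalOfPrime hne inferInstance
  rw [← Ideal.ramificationIdx_eq_one_iff,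
    ← Ideal.ramificationIdxIn_eq_ramificationIdx (P.under ℤ) P Gal(K/ℚ),
    ← Ideal.card_inertia_eq_ramificationIdxIn (G := Gal(K/ℚ)) (P.under ℤ) P] at hram
  have hnt : Nontrivial (Ideal.inertia Gal(K/ℚ) P) := by
    by_contra hnt
    rw [not_nontrivial_iff_subsingleton] at hnt
    exact hram (Nat.card_unique)
  obtain ⟨⟨τ, hτ⟩, hτ1⟩ := exists_ne (1 : Ideal.inertia Gal(K/ℚ) P)
  refine ⟨τ, fun h1 => hτ1 (Subtype.ext h1), hτ⟩

end Fermat.Agent.S13.H94
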