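import Mathlib.NumberTheory.NumberField.ExistsRamified
import Fermat.Agent.S54.H94.Frobenius
import Fermat.Prelude.Def_FLTPrelim_Ramification
import Fermat.Agent.S13.H94.FiniteLevel

set_option autoImplicit false

namespace Fermat.Agent.S13.H94

open scoped Pointwise NumberField
open Fermat.Agent.S54.H94

local notation "Qbar" => AlgebraicClosure ℚ
local notation "Γ" => (AlgebraicClosure ℚ ≃ₐ[ℚ] AlgebraicClosure ℚ)
local notation "𝓑" => integralClosure ℤ (AlgebraicClosure ℚ)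

/-- An automorphism acting trivially on the algebraic integers modulo the prime cut out by `A`
lies in the inertia group of `A`. -/
theorem mem_inertiaSubgroupIn_of_forall_sub_mem (A : ValuationSubring Qbar) (τ : Γ)
    (hτ : ∀ b : 𝓑, τ • b - b ∈ primeB A) : τ ∈ A.inertiaSubgroupIn ℚ := by
  have hinv : ∀ b : 𝓑, τ⁻¹ • b - b ∈ primeB A := fun b => by
    have h := hτ (τ⁻¹ • b)
    rw [smul_inv_smul] at h
    have := (primeB A).neg_mem h
    rwa [neg_sub] at this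
  have hunit : ∀ (ρ : Γ), (∀ b : 𝓑, ρ • b - b ∈ primeB A) →
      ∀ s : 𝓑, IsUnit (inclB A s) → IsUnit (inclB A (ρ • s)) := by
    intro ρ hρ s hs
    rw [isUnit_inclB_iff, ← mem_primeB_iff] at hs ⊢
    intro h
    apply hs
    have := (primeB A).sub_mem h (hρ s)
    simpa using this
  have hmem : ∀ x ∈ A, τ x ∈ A := map_mem_of_forall_isUnit τ (hunit τ hτ)
  have hmem' : ∀ x ∈ A, τ⁻¹ x ∈ A := map_mem_of_forall_isUnit τ⁻¹ (hunit τ⁻¹ hinv)
  have hτA : τ ∈ A.decompositionSubgroup ℚ := by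
    rw [MulAction.mem_stabilizer_iff]
    ext x
    rw [ValuationSubring.mem_pointwise_smul_iff_inv_smul_mem]
    constructor
    · intro h
      have h2 : τ • (τ⁻¹ • x) ∈ A := hmem _ h
      rwa [smul_inv_smul] at h2
    · intro h
      exact hmem' x h
  have hres : ∀ b : 𝓑, IsLocalRing.residue A (inclB A (τ • b)) =
      IsLocalRing.residue A (inclB A b) := by
    intro b
    have h1 : inclB A (τ • b - b) ∈ IsLocalRing.maximalIdeal A := hτ b
    rw [← IsLocalRing.residue_eq_zero_iff, map_sub, map_sub, sub_eq_zero] at h1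
    exact h1
  refine ⟨⟨τ, hτA⟩, ?_, rfl⟩
  show (⟨τ, hτA⟩ : A.decompositionSubgroup ℚ) ∈ A.inertiaSubgroup ℚ
  rw [ValuationSubring.inertiaSubgroup, MonoidHom.mem_ker]
  ext x
  obtain ⟨a, rfl⟩ := IsLocalRing.residue_surjective x
  obtain ⟨b, s, hs, h⟩ := exists_inclB_mul_eq a
  have hsmul : ∀ c : 𝓑, (⟨τ, hτA⟩ : A.decompositionSubgroup ℚ) • inclB A c = inclB A (τ • c) :=
    fun c => Subtype.ext rfl
  have h1 := congrArg (fun y => IsLocalRing.residue A ((⟨τ, hτA⟩ : A.decompositionSubgroup ℚ) • y)) h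
  simp only [smul_mul', hsmul, map_mul, hres] at h1
  rw [← h, map_mul] at h1
  have hne : (IsLocalRing.residue A (inclB A s)) ≠ 0 :=
    (IsLocalRing.residue_ne_zero_iff_isUnit _).mpr hs
  show (⟨τ, hτA⟩ : A.decompositionSubgroup ℚ) • (IsLocalRing.residue A a) = IsLocalRing.residue A a
  rw [← IsLocalRing.ResidueField.residue_smul]
  exact mul_right_cancel₀ hne h1


local instance topB' : TopologicalSpace 𝓑 := ⊥

local instance discreteTopB' : DiscreteTopology 𝓑 := ⟨rfl⟩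

set_option synthInstance.maxHeartbeats 200000 in
/-- Shortcut instance (the generic search is slow). -/
local instance smulCommClass_fixed (H : Subgroup Γ) :
    SMulCommClass ↥H (FixedPoints.subalgebra ℤ 𝓑 ↥H) 𝓑 := inferInstance

/-- Lifting: an automorphism that is trivial modulo `𝔓` on the `H`-invariant algebraic integers
can be corrected by elements of the closed normal subgroup `H` to one that is trivial modulo `𝔓`
on all algebraic integers. -/
theorem exists_mul_mul_forall_sub_mem (H : Subgroup Γ) (hn : H.Normal)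
    (hc : IsClosed (H : Set Γ)) (𝔓 : Ideal 𝓑) [𝔓.IsPrime] (σ₀ : Γ)
    (hσ₀ : ∀ b : 𝓑, (∀ h ∈ H, h • b = b) → σ₀ • b - b ∈ 𝔓) :
    ∃ h₁ ∈ H, ∃ h₂ ∈ H, ∀ b : 𝓑, (h₁ * σ₀ * h₂) • b - b ∈ 𝔓 := by
  have : CompactSpace ↥H := isCompact_iff_compactSpace.mp hc.isCompact
  have hinv : Algebra.IsInvariant (FixedPoints.subalgebra ℤ 𝓑 ↥H) 𝓑 ↥H := ⟨fun x h ↦ ⟨⟨x, h⟩, rfl⟩⟩
  have hstab : ∀ (g : Γ) (b : 𝓑), (∀ h ∈ H, h • b = b) → ∀ h ∈ H, h • (g • b) = g • b := by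
    intro g b hb h hh
    have h1 := hb (g⁻¹ * h * g) (hn.conj_mem' h hh g)
    rw [mul_smul, mul_smul, inv_smul_eq_iff] at h1
    exact h1
  have hRmem : ∀ r : FixedPoints.subalgebra ℤ 𝓑 ↥H, ∀ h ∈ H, h • (r : 𝓑) = (r : 𝓑) := fun r h hh => r.2 ⟨h, hh⟩
  have hunder : (σ₀ • 𝔓).under (FixedPoints.subalgebra ℤ 𝓑 ↥H) =
      𝔓.under (FixedPoints.subalgebra ℤ 𝓑 ↥H) := by
    ext r
    simp only [Ideal.under, Ideal.mem_comap]
    rw [Ideal.mem_pointwise_smul_iff_inv_smul_mem]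
    have h1 := hσ₀ (σ₀⁻¹ • (r : 𝓑)) (hstab σ₀⁻¹ r (hRmem r))
    rw [smul_inv_smul] at h1
    constructor
    · intro h
      have := 𝔓.add_mem h1 h
      simpa using this
    · intro h
      have := 𝔓.sub_mem h h1
      simpa using this
  obtain ⟨h, hh⟩ := Algebra.IsInvariant.exists_smul_of_under_eq_of_profinite 
    (A := FixedPoints.subalgebra ℤ 𝓑 ↥H) (G := ↥H)
    (σ₀ • 𝔓) 𝔓 hunder
  have hσ₁P : ((h : Γ) * σ₀) • 𝔓 = 𝔓 := by
    rw [mul_smul]
    exact hh.symm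
  have hσ₁ : ∀ b : 𝓑, (∀ h ∈ H, h • b = b) → ((h : Γ) * σ₀) • b - b ∈ 𝔓 := by
    intro b hb
    rw [mul_smul, hstab σ₀ b hb h h.2]
    exact hσ₀ b hb
  have hlies : 𝔓.LiesOver (𝔓.under (FixedPoints.subalgebra ℤ 𝓑 ↥H)) := ⟨rfl⟩
  let e : (𝓑 ⧸ 𝔓) ≃+* (𝓑 ⧸ 𝔓) :=
    Ideal.quotientEquiv 𝔓 𝔓 (MulSemiringAction.toRingEquiv Γ 𝓑 ((h : Γ) * σ₀)) (by
      conv_lhs => rw [← hσ₁P]
      rfl)
  have he : ∀ b : 𝓑, e (Ideal.Quotient.mk 𝔓 b) = Ideal.Quotient.mk 𝔓 (((h : Γ) * σ₀) • b) :=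
    fun b => rfl
  let φ : (𝓑 ⧸ 𝔓) ≃ₐ[(FixedPoints.subalgebra ℤ 𝓑 ↥H) ⧸ 𝔓.under (FixedPoints.subalgebra ℤ 𝓑 ↥H)]
      (𝓑 ⧸ 𝔓) :=
    AlgEquiv.ofRingEquiv (f := e) (by
      intro x
      obtain ⟨r, rfl⟩ := Ideal.Quotient.mk_surjective x
      show e (Ideal.Quotient.mk 𝔓 (r : 𝓑)) = Ideal.Quotient.mk 𝔓 (r : 𝓑)
      rw [he, Ideal.Quotient.eq]
      exact hσ₁ r (hRmem r))
  obtain ⟨h', hh'⟩ := Ideal.Quotient.stabilizerHom_surjective_of_profinite (G := ↥H)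
    (𝔓.under (FixedPoints.subalgebra ℤ 𝓑 ↥H)) 𝔓 φ
  refine ⟨h, h.2, ((h'.1 : ↥H) : Γ)⁻¹, H.inv_mem h'.1.2, fun b => ?_⟩
  have h1 := DFunLike.congr_fun hh' (Ideal.Quotient.mk 𝔓 ((h'.1 : ↥H)⁻¹ • b))
  rw [Ideal.Quotient.stabilizerHom_apply] at h1
  have h2 : φ (Ideal.Quotient.mk 𝔓 ((h'.1 : ↥H)⁻¹ • b)) =
      Ideal.Quotient.mk 𝔓 (((h : Γ) * σ₀) • ((h'.1 : ↥H)⁻¹ • b)) := he _
  rw [h2] at h1
  have h3 : h' • ((h'.1 : ↥H)⁻¹ • b) = b := smul_inv_smul (h'.1 : ↥H) b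
  rw [h3, eq_comm, Ideal.Quotient.eq] at h1
  have h4 : ((h : Γ) * σ₀ * ((h'.1 : ↥H) : Γ)⁻¹) • b = ((h : Γ) * σ₀) • ((h'.1 : ↥H)⁻¹ • b) := by
    rw [mul_smul ((h : Γ) * σ₀)]
    rfl
  rw [h4]
  exact h1


/-- The inclusion of the ring of integers of a subfield of `ℚbar` in the algebraic integers. -/
noncomputable def iotaF (F : IntermediateField ℚ Qbar) : 𝓞 F →+* 𝓑 :=
  ((algebraMap F Qbar).comp (algebraMap (𝓞 F) F)).codRestrict (integralClosure ℤ Qbar)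
    fun x => map_isIntegral_int (algebraMap F Qbar) x.2

@[simp] lemma coe_iotaF (F : IntermediateField ℚ Qbar) (x : 𝓞 F) :
    ((iotaF F x : 𝓑) : Qbar) = ((x : F) : Qbar) := rfl

/-- **Minkowski + inertia**: a normal open subgroup of `Gal(ℚbar/ℚ)` containing, for every prime
`q`, the inertia group of some valuation subring over `q`, is the whole group. -/
theorem eq_top_of_inertia_le (H : Subgroup Γ) (hn : H.Normal) (ho : IsOpen (H : Set Γ))
    (hI : ∀ q : ℕ, q.Prime →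
      ∃ A : ValuationSubring Qbar, A.LiesOverPrime q ∧ A.inertiaSubgroupIn ℚ ≤ H) :
    H = ⊤ := by
  have hc : IsClosed (H : Set Γ) := H.isClosed_of_isOpen ho
  by_contra hne
  set F : IntermediateField ℚ Qbar := IntermediateField.fixedField H with hF
  have hfix : F.fixingSubgroup = H := InfiniteGalois.fixingSubgroup_fixedField ⟨H, hc⟩
  have hfd : FiniteDimensional ℚ F :=
    (InfiniteGalois.isOpen_iff_finite F).mp (by rw [hfix]; exact ho)
  have hgal : IsGalois ℚ F := (InfiniteGalois.normal_iff_isGalois F).mp (by rw [hfix]; exact hn)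
  have : NumberField F := { to_charZero := inferInstance, to_finiteDimensional := hfd }
  have hrank : 1 < Module.finrank ℚ F := by
    by_contra h
    have h0 : 0 < Module.finrank ℚ F := Module.finrank_pos
    have h1 : Module.finrank ℚ F = 1 := by omega
    rw [IntermediateField.finrank_eq_one_iff] at h1
    apply hne
    rw [← hfix, h1, IntermediateField.fixingSubgroup_bot]
  obtain ⟨q, hq, hram⟩ := exists_inertia_ne_one F hrank
  obtain ⟨A, hA, hIA⟩ := hI q hq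
  have hP : (q : 𝓞 F) ∈ (primeB A).comap (iotaF F) := by
    rw [Ideal.mem_comap, mem_primeB_iff]
    have : ((iotaF F (q : 𝓞 F) : 𝓑) : Qbar) = (q : Qbar) := by simp
    rw [this]
    exact hA
  obtain ⟨τ, hτ1, hτ⟩ := hram ((primeB A).comap (iotaF F)) (Ideal.comap_isPrime _ _) hP
  obtain ⟨σ₀, rfl⟩ := AlgEquiv.restrictNormalHom_surjective Qbar τ
  have hΦ : ∀ b : 𝓑, (∀ h ∈ H, h • b = b) → σ₀ • b - b ∈ primeB A := by
    intro b hb
    have hbF : (b : Qbar) ∈ F := by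
      rw [hF, IntermediateField.mem_fixedField_iff]
      intro f hf
      exact congrArg Subtype.val (hb f hf)
    have hint : IsIntegral ℤ (⟨b, hbF⟩ : F) :=
      (isIntegral_algebraMap_iff (algebraMap F Qbar).injective).mp b.2
    obtain ⟨x, hx⟩ : ∃ x : 𝓞 F, (x : F) = ⟨b, hbF⟩ := ⟨⟨⟨b, hbF⟩, hint⟩, rfl⟩
    have h1 := hτ x
    rw [Ideal.mem_comap, map_sub] at h1
    have e2 : iotaF F x = b := Subtype.ext (congrArg (fun z : F => (z : Qbar)) hx)
    have e3 : iotaF F ((AlgEquiv.restrictNormalHom F) σ₀ • x) = σ₀ • b :=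
      Subtype.ext ((AlgEquiv.restrictNormal_commutes σ₀ F (x : F)).trans
        (congrArg (fun z : F => σ₀ (z : Qbar)) hx))
    rw [e2, e3] at h1
    exact h1
  obtain ⟨h₁, hh₁, h₂, hh₂, hτ'⟩ := exists_mul_mul_forall_sub_mem H hn hc (primeB A) σ₀ hΦ
  have hmem := hIA (mem_inertiaSubgroupIn_of_forall_sub_mem A _ hτ')
  have hσ₀H : σ₀ ∈ H := by
    have : σ₀ = h₁⁻¹ * (h₁ * σ₀ * h₂) * h₂⁻¹ := by group
    rw [this]
    exact H.mul_mem (H.mul_mem (H.inv_mem hh₁) hmem) (H.inv_mem hh₂)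
  apply hτ1
  ext x
  have h := AlgEquiv.restrictNormal_commutes σ₀ F x
  have h2 : σ₀ (x : Qbar) = x := (IntermediateField.mem_fixedField_iff H _).mp x.2 σ₀ hσ₀H
  exact h.trans h2

end Fermat.Agent.S13.H94
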